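import Mathlib

/-!
# Hecke recursions on sequences of coefficients
-/

set_option autoImplicit false

namespace Fermat.Agent.HeckeDuality

variable {R : Type*} [CommRing R]

/-- `a` is an eigen-sequence with eigenvalues `lam` and weights `e`:
`a (n * ℓ) + e ℓ * a (n / ℓ) [ℓ ∣ n] = lam ℓ * a n` for all primes `ℓ`. -/
def SeqEigen (e lam a : ℕ → R) : Prop :=
  ∀ ℓ : ℕ, ℓ.Prime → ∀ n : ℕ,
    a (n * ℓ) + (if ℓ ∣ n then e ℓ * a (n / ℓ) else 0) = lam ℓ * a n

/-- Induction along `n = m * ℓ`, with the two predecessors of the Hecke recursion. -/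
theorem heckeRec {P : ℕ → Prop} (h0 : P 0) (h1 : P 1)
    (step : ∀ ℓ m : ℕ, ℓ.Prime → m ≠ 0 → P m → (ℓ ∣ m → P (m / ℓ)) → P (m * ℓ)) (n : ℕ) : P n := by
  induction n using Nat.strong_induction_on with
  | _ n ih =>
    rcases lt_or_ge n 2 with hn | hn
    · interval_cases n <;> assumption
    · rw [← Nat.div_mul_cancel (Nat.minFac_dvd n)]
      have hp := Nat.minFac_prime (show n ≠ 1 by omega)
      have hlt : n / n.minFac < n := Nat.div_lt_self (by omega) hp.one_lt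
      exact step _ _ hp (Nat.div_pos (Nat.minFac_le (by omega)) hp.pos).ne' (ih _ hlt)
        fun _ => ih _ ((Nat.div_le_self _ _).trans_lt hlt)

namespace SeqEigen

variable {e lam a : ℕ → R}

theorem apply_prime (h : SeqEigen e lam a) {ℓ : ℕ} (hℓ : ℓ.Prime) : a ℓ = lam ℓ * a 1 := by
  have h1 := h ℓ hℓ 1
  rwa [if_neg hℓ.not_dvd_one, add_zero, one_mul] at h1

theorem eq_zero (h : SeqEigen e lam a) (h0 : a 0 = 0) (h1 : a 1 = 0) (n : ℕ) :
    a n = 0 := by
  refine heckeRec (P := fun n => a n = 0) h0 h1 (fun ℓ m hℓ _ hm hd => ?_) n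
  have hrel := h ℓ hℓ m
  rw [hm, mul_zero] at hrel
  split_ifs at hrel with h'
  · rwa [hd h', mul_zero, add_zero] at hrel
  · rwa [add_zero] at hrel


theorem mul_of_coprime (h : SeqEigen e lam a) (h0 : a 0 = 0) (h1 : a 1 = 1) (m : ℕ) :
    ∀ n : ℕ, m.Coprime n → a (m * n) = a m * a n := by
  refine heckeRec (P := fun m => ∀ n : ℕ, m.Coprime n → a (m * n) = a m * a n)
    (fun n _ => by simp [h0]) (fun n _ => by simp [h1]) (fun ℓ k hℓ _ hk hd n hn => ?_) m
  have hiff : ℓ ∣ k * n ↔ ℓ ∣ k := hn.coprime_mul_left.dvd_mul_right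
  have e1 := h ℓ hℓ (k * n)
  have e2 := h ℓ hℓ k
  rw [hk n hn.coprime_mul_right] at e1
  rw [show k * ℓ * n = k * n * ℓ by ring]
  split_ifs at e2 with h'
  · rw [if_pos (hiff.2 h'), Nat.mul_div_right_comm h' n,
      hd h' n (hn.coprime_mul_right.coprime_div_left h')] at e1
    linear_combination e1 - (a n) * e2
  · rw [if_neg (mt hiff.1 h'), add_zero] at e1
    linear_combination e1 - (a n) * e2

theorem prime_pow (h : SeqEigen e lam a) {ℓ : ℕ} (hℓ : ℓ.Prime) (r : ℕ) :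
    a (ℓ ^ (r + 2)) + e ℓ * a (ℓ ^ r) = lam ℓ * a (ℓ ^ (r + 1)) := by
  have h2 := h ℓ hℓ (ℓ ^ (r + 1))
  rwa [if_pos (dvd_pow_self ℓ (Nat.succ_ne_zero r)), ← pow_succ, pow_succ ℓ r,
    Nat.mul_div_cancel _ hℓ.pos, ← pow_succ] at h2

end SeqEigen

end Fermat.Agent.HeckeDuality
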