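import Fermat.Agent.Periods.Hecke
import Fermat.Agent.Gamma0.Main
import Fermat.Agent.Poincare.Gamma0Link
import Fermat.Prelude.Def_CuspForm_HeckeEvalForms
import Fermat.Prelude.Def_ModularCurve_ModularUnit

/-!
# The Shimura homomorphism and the lower bound for the Eisenstein index

The homomorphism `Γ₀(p) → ℤ/n`, `n = (p-1)/(p-1,12)`, through the lower right entry kills the
parabolic and elliptic elements and is an eigenvector for the Hecke operators with the Eisenstein
system of eigenvalues. As the Hecke algebra acts faithfully on the parabolic homomorphisms, the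
Eisenstein evaluation modulo `n` factors through the Hecke algebra of cusp forms.
-/

set_option autoImplicit false

noncomputable section

namespace Fermat.Agent.HeckeDuality

open CongruenceSubgroup Matrix.SpecialLinearGroup ModularCurve ModularCurve.Period
open scoped MatrixGroups ModularForm

section General

variable (N : ℕ) [NeZero N]

/-- The Hecke operator at a prime on `Hom(Γ₀(N), B)`. -/
def periodHeckeOp (B : Type) [AddCommGroup B] (ℓ : Nat.Primes) :
    (Additive (Gamma0 N) →+ B) →ₗ[ℤ] (Additive (Gamma0 N) →+ B) :=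
  if h : (ℓ : ℕ) ∣ N then Periods.homU ℓ.2.ne_zero h ℤ else Periods.homT ℓ.2 h ℤ

theorem periodHeckeOp_comp {B C : Type} [AddCommGroup B] [AddCommGroup C] (ℓ : Nat.Primes)
    (g : B →+ C) (φ : Additive (Gamma0 N) →+ B) :
    periodHeckeOp N C ℓ (g.comp φ) = g.comp (periodHeckeOp N B ℓ φ) := by
  by_cases h : (ℓ : ℕ) ∣ N
  · rw [periodHeckeOp, periodHeckeOp, dif_pos h, dif_pos h, Periods.homU_comp _ h ℤ ℤ]
  · rw [periodHeckeOp, periodHeckeOp, dif_neg h, dif_neg h, Periods.homT_comp _ h ℤ ℤ]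

/-- The period pairing intertwines the Hecke operators. -/
theorem periodHeckeOp_periodHomPair (ℓ : Nat.Primes)
    (f g : CuspForm (Gamma0 N) 2) :
    periodHeckeOp N ℂ ℓ (periodHomPair N (f, g)) =
      periodHomPair N
        ((CuspForm.heckeFormsGen N 2 ℓ).1 f, (CuspForm.heckeFormsGen N 2 ℓ).1 g) := by
  rw [Periods.periodHomPair_eq]
  simp only [LinearMap.coprod_apply, LinearMap.comp_apply, LinearMap.add_apply,
    LinearMap.sub_apply, LinearMap.id_apply, Periods.periodMapLin_apply]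
  by_cases h : (ℓ : ℕ) ∣ N
  · rw [periodHeckeOp, dif_pos h, CuspForm.heckeFormsGen_of_dvd h, CuspForm.heckeAlgebra.coe_U]
    simp only [map_add, map_sub, Periods.periodMap_heckeULin ℓ.2.ne_zero h]
    rw [← Periods.charInvolution_homU, ← Periods.charInvolution_homU]
    rfl
  · rw [periodHeckeOp, dif_neg h, CuspForm.heckeFormsGen_of_not_dvd h, CuspForm.heckeAlgebra.coe_T]
    simp only [map_add, map_sub, Periods.periodMap_heckeTLin ℓ.2 h]
    rw [← Periods.charInvolution_homT, ← Periods.charInvolution_homT]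
    rfl

/-- Every Hecke polynomial acts naturally on homomorphisms, compatibly with periods and with
systems of eigenvalues. -/
theorem exists_periodAction (P : HeckeAlg) :
    ∃ E : ∀ (B : Type) [AddCommGroup B],
        (Additive (Gamma0 N) →+ B) →+ (Additive (Gamma0 N) →+ B),
      (∀ (B C : Type) [AddCommGroup B] [AddCommGroup C] (g : B →+ C)
          (φ : Additive (Gamma0 N) →+ B), E C (g.comp φ) = g.comp (E B φ)) ∧
      (∀ f g : CuspForm (Gamma0 N) 2, E ℂ (periodHomPair N (f, g)) =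
          periodHomPair N ((CuspForm.heckeEvalForms N 2 P).1 f,
            (CuspForm.heckeEvalForms N 2 P).1 g)) ∧
      (∀ (B : Type) [AddCommGroup B] (lam : Nat.Primes → ℤ) (χ : Additive (Gamma0 N) →+ B),
          (∀ ℓ, periodHeckeOp N B ℓ χ = lam ℓ • χ) → E B χ = MvPolynomial.aeval lam P • χ) := by
  induction P using MvPolynomial.induction_on with
  | C a =>
    refine ⟨fun B _ => a • AddMonoidHom.id (Additive (Gamma0 N) →+ B), ?_, ?_, ?_⟩
    · intro B C _ _ g φ
      ext x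
      simp
    · intro f g
      rw [CuspForm.heckeEvalForms_C]
      simp only [AddMonoidHom.smul_apply, AddMonoidHom.id_apply]
      rw [← map_zsmul, Prod.smul_mk]
      rfl
    · intro B _ lam χ _
      simp
  | add P Q hP hQ =>
    obtain ⟨E, hE1, hE2, hE3⟩ := hP
    obtain ⟨F, hF1, hF2, hF3⟩ := hQ
    refine ⟨fun B _ => E B + F B, ?_, ?_, ?_⟩
    · intro B C _ _ g φ
      simp only [AddMonoidHom.add_apply, hE1, hF1, AddMonoidHom.comp_add]
    · intro f g
      rw [map_add, AddMonoidHom.add_apply, hE2, hF2, ← map_add]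
      rfl
    · intro B _ lam χ h
      rw [map_add, AddMonoidHom.add_apply, hE3 B lam χ h, hF3 B lam χ h, add_smul]
  | mul_X P ℓ hP =>
    obtain ⟨E, hE1, hE2, hE3⟩ := hP
    refine ⟨fun B _ => (E B).comp (periodHeckeOp N B ℓ).toAddMonoidHom, ?_, ?_, ?_⟩
    · intro B C _ _ g φ
      simp only [AddMonoidHom.comp_apply, LinearMap.toAddMonoidHom_coe, periodHeckeOp_comp, hE1]
    · intro f g
      simp only [AddMonoidHom.comp_apply, LinearMap.toAddMonoidHom_coe,
        periodHeckeOp_periodHomPair, hE2]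
      rw [map_mul, show CuspForm.heckeEvalForms N 2 (MvPolynomial.X ℓ) =
        CuspForm.heckeFormsGen N 2 ℓ from CuspForm.heckeEvalForms_heckeGen N 2 ℓ]
      rfl
    · intro B _ lam χ h
      simp only [AddMonoidHom.comp_apply, LinearMap.toAddMonoidHom_coe, h, map_zsmul,
        hE3 B lam χ h, map_mul, MvPolynomial.aeval_X, smul_smul]
      rw [mul_comm]

theorem range_periodHomPair (N : ℕ) [NeZero N] :
    LinearMap.range (periodHomPair N) = parabolicHoms ℂ (Gamma0 N) ℂ := by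
  have := (Gamma0.parabolicHoms_free N ℂ).2
  refine (Periods.periodHomPair_eichlerShimura_of_finrank N ?_).2
  have h1 := Poincare.finrank_cuspForm_two (N := N)
  rw [← Gamma0.genus_eq N, Nat.cast_inj] at h1
  rw [Gamma0.finrank_parabolicHoms N ℂ, h1]

/-- An eigenvector in homomorphisms with any finite cyclic coefficients killing the parabolic and
elliptic elements gives a congruence satisfied by the relations of the Hecke algebra. -/
theorem aeval_eq_zero_of_eigen_hom {n : ℕ} (lam : Nat.Primes → ℤ)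
    (χ : Additive (Gamma0 N) →+ ZMod n) (hχ : χ ∈ Gamma0.ellParHoms (Gamma0 N) (ZMod n))
    (h1 : ∃ γ, χ γ = 1) (heig : ∀ ℓ, periodHeckeOp N (ZMod n) ℓ χ = lam ℓ • χ)
    (P : HeckeAlg) (hP : CuspForm.heckeEvalForms N 2 P = 0) :
    ((MvPolynomial.aeval lam P : ℤ) : ZMod n) = 0 := by
  obtain ⟨E, hE1, hE2, hE3⟩ := exists_periodAction N P
  obtain ⟨γ, hγ⟩ := Gamma0.exists_ellParHoms_basis.{0} N
  choose a ha using fun i => ZMod.intCast_surjective (χ (Additive.ofMul (γ i)))
  obtain ⟨⟨φ, hφ⟩, hφa⟩ := (hγ ℤ).2 a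
  have hlift : (Int.castAddHom (ZMod n)).comp φ = χ := by
    have hmem : (Int.castAddHom (ZMod n)).comp φ ∈ Gamma0.ellParHoms (Gamma0 N) (ZMod n) := by
      intro x hx
      rw [AddMonoidHom.comp_apply, hφ x hx, map_zero]
    have := (hγ (ZMod n)).1 (a₁ := ⟨_, hmem⟩) (a₂ := ⟨χ, hχ⟩) (funext fun i => by
      simpa [congrFun hφa i] using ha i)
    exact Subtype.ext_iff.1 this
  have hφ0 : E ℤ φ = 0 := by
    have hpar : (Int.castAddHom ℂ).comp φ ∈ parabolicHoms ℂ (Gamma0 N) ℂ := by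
      intro x hx
      rw [AddMonoidHom.comp_apply, hφ x hx.le, map_zero]
    rw [← range_periodHomPair] at hpar
    obtain ⟨⟨f, g⟩, hfg⟩ := hpar
    have h0 := hE2 f g
    rw [hP, hfg, hE1 ℤ ℂ] at h0
    have hz : periodHomPair N ((0 : CuspForm.heckeAlgebra N 2 ∅).1 f,
        (0 : CuspForm.heckeAlgebra N 2 ∅).1 g) = 0 := map_zero _
    rw [hz] at h0
    refine AddMonoidHom.ext fun x => ?_
    simpa using DFunLike.congr_fun h0 x
  have key := hE3 (ZMod n) lam χ heig
  rw [← hlift, hE1 ℤ (ZMod n), hφ0, AddMonoidHom.comp_zero, hlift] at key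
  obtain ⟨x, hx⟩ := h1
  have := DFunLike.congr_fun key x
  rw [AddMonoidHom.smul_apply, hx, zsmul_one, AddMonoidHom.zero_apply] at this
  exact this.symm

end General

section Prime

variable {p : ℕ} [hp : Fact p.Prime]

/-- The lower right entry, as a unit mod `p`. -/
def lowerUnit : Gamma0 p →* (ZMod p)ˣ := (Gamma0Map p).toHomUnits

theorem coe_lowerUnit (γ : Gamma0 p) :
    (lowerUnit γ : ZMod p) = (((γ : SL(2, ℤ)) 1 1 : ℤ) : ZMod p) := rfl

theorem upper_mul_lower (γ : Gamma0 p) :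
    (((γ : SL(2, ℤ)) 0 0 : ℤ) : ZMod p) * (((γ : SL(2, ℤ)) 1 1 : ℤ) : ZMod p) = 1 := by
  have h := congrArg (Int.cast : ℤ → ZMod p)
    ((Matrix.det_fin_two _).symm.trans (γ : SL(2, ℤ)).2)
  push_cast at h
  rw [Gamma0_mem.mp γ.2, mul_zero, sub_zero] at h
  exact h

theorem lowerUnit_surjective : Function.Surjective (lowerUnit (p := p)) := by
  intro u
  have hco : IsCoprime ((u : ZMod p).val : ℤ) (p : ℤ) := by
    rw [Int.isCoprime_iff_nat_coprime]
    simp only [Int.natAbs_natCast]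
    exact ZMod.val_coe_unit_coprime u
  obtain ⟨x, y, hxy⟩ := hco
  refine ⟨⟨⟨!![x, -y; (p : ℤ), ((u : ZMod p).val : ℤ)], ?_⟩, ?_⟩, ?_⟩
  · rw [Matrix.det_fin_two_of]
    linear_combination hxy
  · exact Gamma0_mem.mpr (by simp)
  · ext
    rw [coe_lowerUnit]
    simp

theorem lowerUnit_pow_twelve (γ : Gamma0 p)
    (h : ((γ : SL(2, ℤ)) : Matrix (Fin 2) (Fin 2) ℤ).trace ^ 2 ≤ 4) :
    lowerUnit γ ^ 12 = 1 := by
  ext
  rw [Units.val_pow_eq_pow_val, Units.val_one, coe_lowerUnit]
  have hm := upper_mul_lower γ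
  rw [Matrix.trace_fin_two] at h
  set a := (γ : SL(2, ℤ)) 0 0
  set d := (γ : SL(2, ℤ)) 1 1
  have hq : ((d : ZMod p)) ^ 2 - ((a + d : ℤ) : ZMod p) * d + 1 = 0 := by
    push_cast
    linear_combination -hm
  have hb : -2 ≤ a + d ∧ a + d ≤ 2 := abs_le.mp (abs_le_of_sq_le_sq (by linarith) two_pos.le)
  generalize a + d = t at hq hb
  obtain ⟨h1, h2⟩ := hb
  generalize (d : ZMod p) = x at hq ⊢
  interval_cases t <;> push_cast at hq
  · have : x + 1 = 0 := mul_self_eq_zero.mp (by linear_combination hq)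
    rw [eq_neg_of_add_eq_zero_left this]; norm_num
  · have h3 : x ^ 3 = 1 := by linear_combination (x - 1) * hq
    rw [show x ^ 12 = (x ^ 3) ^ 4 by ring, h3]; norm_num
  · have h3 : x ^ 2 = -1 := by linear_combination hq
    rw [show x ^ 12 = (x ^ 2) ^ 6 by ring, h3]; norm_num
  · have h3 : x ^ 3 = -1 := by linear_combination (x + 1) * hq
    rw [show x ^ 12 = (x ^ 3) ^ 4 by ring, h3]; norm_num
  · have : x - 1 = 0 := mul_self_eq_zero.mp (by linear_combination hq)
    rw [sub_eq_zero.mp this]; norm_num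

/-- The quotient of order `(p - 1)/(p - 1, 12)` of `(ℤ/p)ˣ`. -/
theorem exists_shimuraLog : ∃ L : (ZMod p)ˣ →* Multiplicative (ZMod (eisensteinNumerator p)),
    Function.Surjective L ∧ ∀ x, x ^ 12 = 1 → L x = 1 := by
  have hcyc : IsCyclic (ZMod p)ˣ := inferInstance
  have hcard : Nat.card (ZMod p)ˣ = p - 1 := by rw [Nat.card_units, Nat.card_zmod]
  have hdvd : eisensteinNumerator p ∣ Nat.card (ZMod p)ˣ := hcard ▸ eisensteinNumerator_dvd p
  let e := zmodCyclicMulEquiv hcyc
  let c := (ZMod.castHom hdvd (ZMod (eisensteinNumerator p))).toAddMonoidHom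
  refine ⟨c.toMultiplicative.comp e.symm.toMonoidHom, ?_, ?_⟩
  · intro y
    obtain ⟨z, hz⟩ := ZMod.castHom_surjective hdvd y.toAdd
    exact ⟨e (Multiplicative.ofAdd z), by simp [c, hz]⟩
  · intro x hx
    have : NeZero (Nat.card (ZMod p)ˣ) := ⟨Nat.card_pos.ne'⟩
    set z := (e.symm x).toAdd with hz
    have h12 : (12 : ℕ) • z = 0 := by
      rw [hz, ← toAdd_pow, ← map_pow, hx, map_one, toAdd_one]
    obtain ⟨k, hk⟩ : ∃ k : ℕ, (k : ZMod (Nat.card (ZMod p)ˣ)) = z := ⟨z.val, ZMod.natCast_zmod_val z⟩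
    rw [← hk, nsmul_eq_mul, ← Nat.cast_mul, ZMod.natCast_eq_zero_iff, hcard] at h12
    have hgpos : 0 < Nat.gcd (p - 1) 12 := Nat.gcd_pos_of_pos_right _ (by norm_num)
    have hN : eisensteinNumerator p ∣ k := by
      refine (Nat.coprime_div_gcd_div_gcd hgpos).dvd_of_dvd_mul_left
        ?_
      rw [← Nat.mul_dvd_mul_iff_left hgpos, ← mul_assoc,
        Nat.mul_div_cancel' (Nat.gcd_dvd_left _ _), Nat.mul_div_cancel' (Nat.gcd_dvd_right _ _)]
      exact h12
    show Multiplicative.ofAdd (ZMod.castHom hdvd (ZMod (eisensteinNumerator p)) z) = 1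
    rw [← hk, map_natCast, (ZMod.natCast_eq_zero_iff _ _).mpr hN, ofAdd_zero]

theorem apply_eq_sum_of_units {ι : Type} [Fintype ι] {n : ℕ}
    (L : (ZMod p)ˣ →* Multiplicative (ZMod n)) (u : ι → (ZMod p)ˣ) (σ : ι → ι)
    (hσ : Function.Bijective σ) (d : (ZMod p)ˣ) (c : ι → (ZMod p)ˣ)
    (h : ∀ i, u i * d = c i * u (σ i)) :
    ∑ i, (L (c i)).toAdd = Fintype.card ι • (L d).toAdd := by
  have h' : ∀ i, (L (u i)).toAdd + (L d).toAdd = (L (c i)).toAdd + (L (u (σ i))).toAdd := fun i => by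
    rw [← toAdd_mul, ← map_mul, h, map_mul, toAdd_mul]
  have hs := Finset.sum_congr rfl fun i (_ : i ∈ Finset.univ) => h' i
  rw [Finset.sum_add_distrib, Finset.sum_add_distrib, hσ.sum_comp fun i => (L (u i)).toAdd,
    Finset.sum_const, Finset.card_univ] at hs
  exact add_right_cancel (hs.symm.trans (add_comm _ _))

/-- The lower right entries of the cocycle of `T_ℓ`. -/
theorem exists_units_cocycle_T {ℓ : ℕ} (hℓ : ℓ.Prime) (hℓp : ¬ ℓ ∣ p) :
    ∃ u : Option (ZMod ℓ) → (ZMod p)ˣ, ∀ γ i, u i * lowerUnit γ =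
      lowerUnit ((Periods.systemT hℓ hℓp).cocycle γ i) * u ((Periods.systemT hℓ hℓp).perm γ i) := by
  set S := Periods.systemT hℓ hℓp with hS
  have hne : (ℓ : ZMod p) ≠ 0 := by
    rw [Ne, ZMod.natCast_eq_zero_iff]
    exact fun h => hℓp ((Nat.prime_dvd_prime_iff_eq hp.out hℓ).mp h ▸ dvd_rfl)
  refine ⟨fun i => i.elim 1 fun _ => Units.mk0 _ hne, fun γ i => ?_⟩
  have he := congrArg (fun x : GL (Fin 2) ℝ => x 1 1) (S.spec γ i)
  have hc := Gamma0_mem.mp (S.cocycle γ i).2
  have key : ∃ m m' v : ℤ, (∀ _ : True, ((i.elim 1 fun _ => (ℓ : ℤ)) = m)) ∧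
      ((S.perm γ i).elim 1 fun _ => (ℓ : ℤ)) = m' ∧
      ((m * (γ : SL(2, ℤ)) 1 1 : ℤ) : ℝ) =
        (((S.cocycle γ i : SL(2, ℤ)) 1 0 * v + (S.cocycle γ i : SL(2, ℤ)) 1 1 * m' : ℤ) : ℝ) := by
    refine ⟨_, _, (S.perm γ i).elim 0 (fun x => (x.val : ℤ)), fun _ => rfl, rfl, ?_⟩
    generalize S.cocycle γ i = g at he ⊢
    generalize S.perm γ i = j at he ⊢
    cases i <;> cases j <;>
      · simp only [hS, Periods.systemT] at he
        simp [Matrix.mul_apply, Fin.sum_univ_two, hℓ.ne_zero, OnePoint.elim, Option.elim,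
          P2MW.S_ModularForm_heckeT_slash_eq_self_of_mem_Gamma0.ModularForm.HeckeSlashInvariance.heckeRep]
          at he ⊢
        linarith
  obtain ⟨m, m', v, hm, hm', hk⟩ := key
  have hk' := congrArg (Int.cast : ℤ → ZMod p) (Int.cast_injective hk)
  push_cast at hk'
  rw [hc, zero_mul, zero_add, ← hm trivial, ← hm'] at hk'
  ext
  rw [Units.val_mul, Units.val_mul, coe_lowerUnit, coe_lowerUnit]
  revert hk'
  generalize S.cocycle γ i = g
  generalize S.perm γ i = j
  cases i <;> cases j <;> simp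

/-- The lower right entries of the cocycle of `U_p`. -/
theorem lowerUnit_cocycle_U {q : ℕ} (hq : q.Prime) (hqp : q ∣ p) (γ : Gamma0 p) (i : Fin q) :
    lowerUnit ((Periods.systemU hq.ne_zero hqp).cocycle γ i) = lowerUnit γ := by
  set S := Periods.systemU hq.ne_zero hqp with hS
  have he := congrArg (fun x : GL (Fin 2) ℝ => x 0 0) (S.spec γ i)
  have key : (((γ : SL(2, ℤ)) 0 0 + (i : ℕ) * (γ : SL(2, ℤ)) 1 0 : ℤ) : ℝ) =
      (((S.cocycle γ i : SL(2, ℤ)) 0 0 : ℤ) : ℝ) := by
    generalize S.cocycle γ i = g at he ⊢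
    generalize S.perm γ i = j at he ⊢
    simp only [hS, Periods.systemU] at he
    simp [Matrix.mul_apply, Fin.sum_univ_two, hq.ne_zero] at he ⊢
    linarith
  have hk' := congrArg (Int.cast : ℤ → ZMod p) (Int.cast_injective key)
  push_cast at hk'
  rw [Gamma0_mem.mp γ.2, mul_zero, add_zero] at hk'
  ext
  rw [coe_lowerUnit, coe_lowerUnit]
  have h1 := upper_mul_lower γ
  have h2 := upper_mul_lower (S.cocycle γ i)
  rw [← hk'] at h2
  exact mul_left_cancel₀ (left_ne_zero_of_mul_eq_one h1) (h2.trans h1.symm)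

/-- The Shimura homomorphism. -/
theorem exists_shimuraHom :
    ∃ χ : Additive (Gamma0 p) →+ ZMod (eisensteinNumerator p),
      χ ∈ Gamma0.ellParHoms (Gamma0 p) (ZMod (eisensteinNumerator p)) ∧ (∃ γ, χ γ = 1) ∧
      ∀ ℓ, periodHeckeOp p (ZMod (eisensteinNumerator p)) ℓ χ = eisensteinSystem p ℓ • χ := by
  obtain ⟨L, hL, hL12⟩ := exists_shimuraLog (p := p)
  let χ : Additive (Gamma0 p) →+ ZMod (eisensteinNumerator p) :=
    MonoidHom.toAdditiveLeft (L.comp lowerUnit)
  have hχ : ∀ γ, χ (Additive.ofMul γ) = (L (lowerUnit γ)).toAdd := fun _ => rfl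
  refine ⟨χ, ?_, ?_, ?_⟩
  · intro γ hγ
    rw [hχ, hL12 _ (lowerUnit_pow_twelve γ hγ), toAdd_one]
  · obtain ⟨u, hu⟩ := hL (Multiplicative.ofAdd 1)
    obtain ⟨γ, rfl⟩ := lowerUnit_surjective u
    exact ⟨Additive.ofMul γ, by rw [hχ, hu]; rfl⟩
  · intro ℓ
    by_cases h : (ℓ : ℕ) ∣ p
    · rw [periodHeckeOp, dif_pos h, eisensteinSystem_of_dvd h, one_smul, Periods.homU]
      refine AddMonoidHom.ext (Additive.ofMul.surjective.forall.mpr fun γ => ?_)
      rw [Periods.HeckeSystem.op_apply, Periods.HeckeSystem.apply_apply]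
      simp only [hχ, lowerUnit_cocycle_U ℓ.2 h, Finset.sum_const, Finset.card_univ,
        Fintype.card_fin]
      rw [(Nat.prime_dvd_prime_iff_eq ℓ.2 hp.out).mp h, nsmul_eq_mul]
      have hp1 : ((p - 1 : ℕ) : ZMod (eisensteinNumerator p)) = 0 :=
        (ZMod.natCast_eq_zero_iff _ _).mpr (eisensteinNumerator_dvd p)
      have : (p : ZMod (eisensteinNumerator p)) = 1 := by
        have hsplit := congrArg (Nat.cast : ℕ → ZMod (eisensteinNumerator p))
          (Nat.sub_add_cancel hp.out.one_le)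
        rwa [Nat.cast_add, hp1, zero_add, Nat.cast_one, eq_comm] at hsplit
      rw [this, one_mul]
    · have : NeZero (ℓ : ℕ) := ⟨ℓ.2.ne_zero⟩
      rw [periodHeckeOp, dif_neg h, eisensteinSystem_of_not_dvd h, Periods.homT]
      refine AddMonoidHom.ext (Additive.ofMul.surjective.forall.mpr fun γ => ?_)
      rw [Periods.HeckeSystem.op_apply, Periods.HeckeSystem.apply_apply, AddMonoidHom.smul_apply]
      simp only [hχ]
      obtain ⟨u, hu⟩ := exists_units_cocycle_T ℓ.2 h
      rw [apply_eq_sum_of_units L u _ ((Periods.systemT ℓ.2 h).perm_bijective γ) (lowerUnit γ) _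
        (hu γ)]
      rw [Fintype.card_option, ZMod.card, nsmul_eq_mul, zsmul_eq_mul]
      push_cast
      ring

/-- Relations of the Hecke algebra hold for the Eisenstein system modulo the numerator of
`(p - 1)/12`. -/
theorem aeval_eisensteinSystem_eq_zero (P : HeckeAlg) (hP : CuspForm.heckeEvalForms p 2 P = 0) :
    ((MvPolynomial.aeval (eisensteinSystem p) P : ℤ) : ZMod (eisensteinNumerator p)) = 0 := by
  obtain ⟨χ, h1, h2, h3⟩ := exists_shimuraHom (p := p)
  exact aeval_eq_zero_of_eigen_hom p _ χ h1 h2 h3 P hP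

end Prime

end Fermat.Agent.HeckeDuality
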